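import Mathlib

/-!
# S15-LNE, file Count: a point of prime order `p` all of whose multiples have abscissa in
`{x | x ^ ℓ = x} ∖ {x₀}` forces `p + 1 ≤ 2 ℓ`
-/

set_option autoImplicit false
set_option linter.unusedSectionVars false

namespace Fermat.Agent.S15.Lne

open WeierstrassCurve Polynomial

variable {κ : Type*} [Field κ] [DecidableEq κ]

/-- the abscissa (junk value `x0` at the origin). -/
def xc (V : WeierstrassCurve κ) (x0 : κ) : V.toAffine.Point → κ
  | 0 => x0
  | .some x _ _ => x

theorem Count_eq_or_neg (V : WeierstrassCurve κ) {x y x' y' : κ} (h : V.toAffine.Nonsingular x y)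
    (h' : V.toAffine.Nonsingular x' y') (hx : x = x') :
    (Affine.Point.some x y h : V.toAffine.Point) = .some x' y' h' ∨
      (Affine.Point.some x y h : V.toAffine.Point) = - .some x' y' h' := by
  subst hx
  rcases Affine.Y_eq_of_X_eq h.1 h'.1 rfl with e | e
  · left
    subst e
    rfl
  · right
    rw [Affine.Point.neg_some]
    subst e
    rfl

theorem card_bound (V : WeierstrassCurve κ) {p ℓ : ℕ} (hp : p.Prime) (hℓ : 1 < ℓ)
    (Pb : V.toAffine.Point) (hord : addOrderOf Pb = p) (x0 : κ) (hx0 : x0 ^ ℓ = x0)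
    (hnode : ∀ y, ¬ V.toAffine.Nonsingular x0 y)
    (hrat : ∀ (k : ℕ) (x y : κ) (h : V.toAffine.Nonsingular x y),
      k • Pb = .some x y h → x ^ ℓ = x) :
    p + 1 ≤ 2 * ℓ := by
  classical
  set S : Finset κ := (X ^ ℓ - X : κ[X]).roots.toFinset with hS
  have hne : (X ^ ℓ - X : κ[X]) ≠ 0 := FiniteField.X_pow_card_sub_X_ne_zero κ hℓ
  have hmem : ∀ x : κ, x ∈ S ↔ x ^ ℓ = x := by
    intro x
    rw [hS, Multiset.mem_toFinset, mem_roots hne, IsRoot.def, eval_sub, eval_pow, eval_X,
      sub_eq_zero]
  have hcard : S.card ≤ ℓ := by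
    calc S.card ≤ Multiset.card (X ^ ℓ - X : κ[X]).roots := Multiset.toFinset_card_le _
      _ ≤ (X ^ ℓ - X : κ[X]).natDegree := card_roots' _
      _ = ℓ := FiniteField.X_pow_card_sub_X_natDegree_eq κ hℓ
  have hk0 : ∀ k ∈ Finset.Ico 1 p, k • Pb ≠ 0 := by
    intro k hk h0
    rw [Finset.mem_Ico] at hk
    have := addOrderOf_dvd_of_nsmul_eq_zero h0
    rw [hord] at this
    exact absurd (Nat.le_of_dvd (by omega) this) (by omega)
  set f : ℕ → κ := fun k => xc V x0 (k • Pb) with hf
  have himg : (Finset.Ico 1 p).image f ⊆ S.erase x0 := by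
    intro a ha
    obtain ⟨k, hk, rfl⟩ := Finset.mem_image.1 ha
    have h0 := hk0 k hk
    rw [hf]
    simp only
    rcases hkP : k • Pb with _ | ⟨x, y, h⟩
    · exact absurd hkP h0
    · rw [Finset.mem_erase, hmem]
      refine ⟨?_, hrat k x y h hkP⟩
      intro e
      have e' : x = x0 := e
      exact hnode y (e' ▸ h)
  have hfib : ∀ a ∈ (Finset.Ico 1 p).image f,
      ((Finset.Ico 1 p).filter (fun k => f k = a)).card ≤ 2 := by
    intro a ha
    obtain ⟨k0, hk0m, rfl⟩ := Finset.mem_image.1 ha
    have hsub : (Finset.Ico 1 p).filter (fun k => f k = f k0) ⊆ {k0, p - k0} := by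
      intro k hk
      rw [Finset.mem_filter] at hk
      obtain ⟨hkm, hkf⟩ := hk
      have h1 := hk0 k hkm
      have h2 := hk0 k0 hk0m
      rw [Finset.mem_Ico] at hkm hk0m
      rw [hf] at hkf
      simp only at hkf
      rcases hkP : k • Pb with _ | ⟨x, y, h⟩
      · exact absurd hkP h1
      rcases hkP0 : k0 • Pb with _ | ⟨x', y', h'⟩
      · exact absurd hkP0 h2
      rw [hkP, hkP0] at hkf
      have hx : x = x' := hkf
      rw [Finset.mem_insert, Finset.mem_singleton]
      rcases Count_eq_or_neg V h h' hx with e | e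
      · left
        rw [← hkP, ← hkP0, nsmul_eq_nsmul_iff_modEq, hord] at e
        exact Nat.ModEq.eq_of_lt_of_lt e hkm.2 hk0m.2
      · right
        rw [← hkP, ← hkP0, eq_neg_iff_add_eq_zero, ← add_nsmul] at e
        have := addOrderOf_dvd_of_nsmul_eq_zero e
        rw [hord] at this
        obtain ⟨c, hc⟩ := this
        have hc1 : c = 1 := by
          rcases c with _ | _ | c
          · omega
          · rfl
          · exfalso
            have : p * (c + 1 + 1) ≥ p * 2 := Nat.mul_le_mul_left p (by omega)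
            omega
        rw [hc1, mul_one] at hc
        omega
    exact (Finset.card_le_card hsub).trans Finset.card_le_two
  have h1 := Finset.card_le_mul_card_image (Finset.Ico 1 p) 2 hfib
  rw [Nat.card_Ico] at h1
  have h2 := Finset.card_le_card himg
  rw [Finset.card_erase_of_mem ((hmem x0).2 hx0)] at h2
  have hp1 := hp.one_lt
  omega

end Fermat.Agent.S15.Lne
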