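import Mathlib

/-!
# S15-LNE, file Node: the abscissa of the node of a singular Weierstrass cubic carries no
nonsingular point

`Δ = 0`, `c₄ ≠ 0`, characteristic `≠ 2`: the node has abscissa `x₀ = (18 b₆ - b₂ b₄) / c₄`.
With `f = 4 x³ + b₂ x² + 2 b₄ x + b₆`: `c₄³ f(x₀) = 4 c₆ Δ`, `c₄² f'(x₀) / 2 = - 72 Δ`.
-/

set_option autoImplicit false

namespace Fermat.Agent.S15.Lne

open WeierstrassCurve

variable {κ : Type*} [Field κ]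

theorem Node_f (V : WeierstrassCurve κ) (hΔ : V.Δ = 0) (hc4 : V.c₄ ≠ 0) {x0 : κ}
    (hx0 : V.c₄ * x0 = 18 * V.b₆ - V.b₂ * V.b₄) :
    4 * x0 ^ 3 + V.b₂ * x0 ^ 2 + 2 * V.b₄ * x0 + V.b₆ = 0 := by
  have h1 : V.c₄ ^ 3 * (4 * x0 ^ 3 + V.b₂ * x0 ^ 2 + 2 * V.b₄ * x0 + V.b₆) = 4 * V.c₆ * V.Δ := by
    have e : V.c₄ ^ 3 * (4 * x0 ^ 3 + V.b₂ * x0 ^ 2 + 2 * V.b₄ * x0 + V.b₆) =
        4 * (V.c₄ * x0) ^ 3 + V.b₂ * (V.c₄ * x0) ^ 2 * V.c₄ + 2 * V.b₄ * (V.c₄ * x0) * V.c₄ ^ 2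
          + V.b₆ * V.c₄ ^ 3 := by ring
    rw [e, hx0]
    simp only [WeierstrassCurve.c₄, WeierstrassCurve.c₆, WeierstrassCurve.Δ]
    linear_combination ((-V.b₂ ^ 3 + 36 * V.b₂ * V.b₄ - 216 * V.b₆) * V.b₂ ^ 2) * V.b_relation
  rw [hΔ, mul_zero] at h1
  exact (mul_eq_zero.1 h1).resolve_left (pow_ne_zero _ hc4)

theorem Node_f' (V : WeierstrassCurve κ) (hΔ : V.Δ = 0) (hc4 : V.c₄ ≠ 0) {x0 : κ}
    (hx0 : V.c₄ * x0 = 18 * V.b₆ - V.b₂ * V.b₄) :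
    6 * x0 ^ 2 + V.b₂ * x0 + V.b₄ = 0 := by
  have h1 : V.c₄ ^ 2 * (6 * x0 ^ 2 + V.b₂ * x0 + V.b₄) = -72 * V.Δ := by
    have e : V.c₄ ^ 2 * (6 * x0 ^ 2 + V.b₂ * x0 + V.b₄) =
        6 * (V.c₄ * x0) ^ 2 + V.b₂ * (V.c₄ * x0) * V.c₄ + V.b₄ * V.c₄ ^ 2 := by ring
    rw [e, hx0]
    simp only [WeierstrassCurve.c₄, WeierstrassCurve.Δ]
    linear_combination (-18 * V.b₂ ^ 2) * V.b_relation
  rw [hΔ, mul_zero] at h1
  exact (mul_eq_zero.1 h1).resolve_left (pow_ne_zero _ hc4)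

/-- no nonsingular point above the abscissa of the node. -/
theorem not_nonsingular_of_node (h2 : (2 : κ) ≠ 0) (V : WeierstrassCurve κ) (hΔ : V.Δ = 0)
    (hc4 : V.c₄ ≠ 0) {x0 : κ} (hx0 : V.c₄ * x0 = 18 * V.b₆ - V.b₂ * V.b₄) (y : κ) :
    ¬ V.toAffine.Nonsingular x0 y := by
  rw [Affine.nonsingular_iff, Affine.equation_iff]
  rintro ⟨heq, hns⟩
  have hf := Node_f V hΔ hc4 hx0
  have hf' := Node_f' V hΔ hc4 hx0
  simp only [WeierstrassCurve.b₂, WeierstrassCurve.b₄, WeierstrassCurve.b₆] at hf hf'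
  have hη : (2 * y + V.a₁ * x0 + V.a₃) ^ 2 = 0 := by
    linear_combination 4 * heq + hf
  have hη0 : 2 * y + V.a₁ * x0 + V.a₃ = 0 := by
    exact pow_eq_zero_iff (two_ne_zero) |>.1 hη
  rcases hns with h | h
  · apply h
    have h4 : (2 : κ) * (V.a₁ * y - (3 * x0 ^ 2 + 2 * V.a₂ * x0 + V.a₄)) = 0 := by
      linear_combination V.a₁ * hη0 - hf'
    have := (mul_eq_zero.1 h4).resolve_left h2
    linear_combination this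
  · apply h
    linear_combination hη0

end Fermat.Agent.S15.Lne
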