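import Fermat.Agent.EL.X23
import Fermat.Agent.Lib.Frobenius
import Fermat.Agent.S15.Lne.Node
import Fermat.Agent.S15.Lne.Count
import Fermat.Prelude.Def_EllipticCurve_ZeroComponentAt

/-!
# S15-LNE: a rational point of prime order `p` lying in the zero component at a prime `ℓ ≠ 2, p` of
multiplicative reduction forces `p + 1 ≤ 2 ℓ`

The multiples `k Q`, `0 < k < p`, reduce to `p - 1` distinct nonsingular points of the reduced cubic,
fixed by the Frobenius; at most two points per abscissa; the abscissa of the node carries none.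
-/

set_option autoImplicit false
set_option linter.unusedSectionVars false

namespace Fermat.Agent.S15.Lne

open WeierstrassCurve IsLocalRing Fermat.Agent.EL
open scoped WeierstrassCurve.Affine

local notation "Qbar" => AlgebraicClosure ℚ

section core

variable {W : WeierstrassCurve ℤ} {A : ValuationSubring Qbar} [DecidableEq (ResidueField A)]

theorem Main_pow_intCast {ℓ : ℕ} (hℓ : ℓ.Prime) (hA : A.LiesOverPrime ℓ) (n : ℤ) :
    ((n : ResidueField A)) ^ ℓ = n := by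
  have : Fact ℓ.Prime := ⟨hℓ⟩
  have : CharP (ResidueField A) ℓ := charP_residueField hℓ hA
  have := map_intCast (frobenius (ResidueField A) ℓ) n
  rwa [frobenius_def] at this

theorem lne_core {p ℓ : ℕ} (hp : p.Prime) (hℓ : ℓ.Prime) (hℓ2 : ℓ ≠ 2) (hℓp : ℓ ≠ p)
    (hℓΔ : (ℓ : ℤ) ∣ W.Δ) (hℓc₄ : ¬ (ℓ : ℤ) ∣ W.c₄) (hA : A.LiesOverPrime ℓ)
    (g : A.decompositionSubgroup ℚ) (hg : ∀ x : ResidueField A, g • x = x ^ ℓ)
    (Q : (gen (modelA W A)).toAffine.Point) (hQfix : mapPt (decK g) (gen_map_decK g) Q = Q)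
    (hQord : addOrderOf Q = p) (Qb : (spe (modelA W A)).toAffine.Point)
    (hred : RedTo (modelA W A) Q Qb) : p + 1 ≤ 2 * ℓ := by
  have : CharP (ResidueField A) ℓ := charP_residueField hℓ hA
  have h2 : (2 : ResidueField A) ≠ 0 := by
    have := natCast_residue_ne_zero hℓ hA (n := 2) (fun h => hℓ2 ((Nat.prime_dvd_prime_iff_eq hℓ
      Nat.prime_two).1 h))
    exact_mod_cast this
  have hpκ : (p : ResidueField A) ≠ 0 :=
    natCast_residue_ne_zero hℓ hA (fun h => hℓp ((Nat.prime_dvd_prime_iff_eq hℓ hp).1 h))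
  have haux := hasAux h2 (modelA W A)
  have hpQ : p • Q = 0 := by rw [← hQord]; exact addOrderOf_nsmul_eq_zero Q
  have hQ0 : Q ≠ 0 := by
    rintro rfl
    rw [addOrderOf_zero] at hQord
    exact hp.one_lt.ne hQord
  -- the order of the reduction
  have hpQb : p • Qb = 0 := by
    have h1 := hred.nsmul haux p
    rw [hpQ] at h1
    exact h1.unique RedTo.zero
  have hQb0 : Qb ≠ 0 := by
    rintro rfl
    exact hQ0 (eq_zero_of_redTo_zero h2 _ hpκ hred hpQ)
  have : Fact p.Prime := ⟨hp⟩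
  have hord : addOrderOf Qb = p := addOrderOf_eq_prime hpQb hQb0
  -- rationality
  have hrat : ∀ (k : ℕ) (x y : ResidueField A) (h : (spe (modelA W A)).toAffine.Nonsingular x y),
      k • Qb = .some x y h → x ^ ℓ = x := by
    intro k x y h hk
    have h1 := redTo_dec g (hred.nsmul haux k)
    rw [map_nsmul, hQfix] at h1
    have h3 := h1.unique (hred.nsmul haux k)
    rw [hk, mapPt_some] at h3
    have h4 : deck g x = x := by
      have := Affine.Point.some.inj h3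
      exact this.1
    rw [deck_apply, hg] at h4
    exact h4
  -- the node
  have hΔ : (spe (modelA W A)).Δ = 0 := by
    rw [spe_modelA, WeierstrassCurve.map_Δ]
    exact (CharP.intCast_eq_zero_iff (ResidueField A) ℓ _).2 hℓΔ
  have hc4 : (spe (modelA W A)).c₄ ≠ 0 := by
    rw [spe_modelA, WeierstrassCurve.map_c₄]
    exact fun h => hℓc₄ ((CharP.intCast_eq_zero_iff (ResidueField A) ℓ _).1 h)
  set x0 : ResidueField A := (18 * (spe (modelA W A)).b₆ -
    (spe (modelA W A)).b₂ * (spe (modelA W A)).b₄) / (spe (modelA W A)).c₄ with hx0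
  have hx0' : (spe (modelA W A)).c₄ * x0 = 18 * (spe (modelA W A)).b₆ -
      (spe (modelA W A)).b₂ * (spe (modelA W A)).b₄ := by
    rw [hx0]
    field_simp
  have hx0ℓ : x0 ^ ℓ = x0 := by
    have e : x0 = ((18 * W.b₆ - W.b₂ * W.b₄ : ℤ) : ResidueField A) / ((W.c₄ : ℤ) : ResidueField A) := by
      rw [hx0, spe_modelA, WeierstrassCurve.map_b₆, WeierstrassCurve.map_b₂,
        WeierstrassCurve.map_b₄, WeierstrassCurve.map_c₄]
      simp
    rw [e, div_pow, Main_pow_intCast hℓ hA, Main_pow_intCast hℓ hA]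
  exact card_bound _ hp hℓ.one_lt Qb hord x0 hx0ℓ
    (fun y => not_nonsingular_of_node h2 _ hΔ hc4 hx0' y) hrat

/-- "in the zero component" for an arbitrary presentation of the generic fibre. -/
def InZero (W : WeierstrassCurve ℤ) (A : ValuationSubring Qbar) (EK : WeierstrassCurve Qbar)
    (P : EK.toAffine.Point) : Prop :=
  P = 0 ∨ ∃ (x y : Qbar) (h : EK.toAffine.Nonsingular x y), P = .some x y h ∧
    (x ∉ A ∨ ∃ (hx : x ∈ A) (hy : y ∈ A),
      (W.map (Int.castRingHom (ResidueField A))).toAffine.Nonsingular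
        (residue A ⟨x, hx⟩) (residue A ⟨y, hy⟩))

theorem exists_redTo_of_inZero {Q : (gen (modelA W A)).toAffine.Point}
    (h : InZero W A (gen (modelA W A)) Q) : ∃ Qb, RedTo (modelA W A) Q Qb := by
  rcases h with rfl | ⟨x, y, hxy, rfl, hx | ⟨hx, hy, hns⟩⟩
  · exact ⟨0, RedTo.zero⟩
  · exact ⟨0, RedTo.of_not_mem hxy hx⟩
  · rw [← spe_modelA W A] at hns
    exact ⟨_, RedTo.some (a := ⟨x, hx⟩) (b := ⟨y, hy⟩) hxy hns⟩

theorem lne_core' {p ℓ : ℕ} (hp : p.Prime) (hℓ : ℓ.Prime) (hℓ2 : ℓ ≠ 2) (hℓp : ℓ ≠ p)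
    (hℓΔ : (ℓ : ℤ) ∣ W.Δ) (hℓc₄ : ¬ (ℓ : ℤ) ∣ W.c₄) (hA : A.LiesOverPrime ℓ)
    (g : A.decompositionSubgroup ℚ) (hg : ∀ x : ResidueField A, g • x = x ^ ℓ)
    {EK : WeierstrassCurve Qbar} (hE : gen (modelA W A) = EK) (hEσ : EK.map (decK g) = EK)
    (Q : EK.toAffine.Point) (hQfix : mapPt (decK g) hEσ Q = Q)
    (hQord : addOrderOf Q = p) (h : InZero W A EK Q) : p + 1 ≤ 2 * ℓ := by
  subst hE
  obtain ⟨Qb, hQb⟩ := exists_redTo_of_inZero h
  exact lne_core hp hℓ hℓ2 hℓp hℓΔ hℓc₄ hA g hg Q hQfix hQord Qb hQb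

end core

/-- EXPORT of S15-LNE. -/
theorem lne {p : ℕ} (hp : p.Prime) (W : WeierstrassCurve ℤ)
    (Q : ((W.map (Int.castRingHom ℚ))⁄(AlgebraicClosure ℚ)).Point)
    (hQfix : ∀ σ : AlgebraicClosure ℚ ≃ₐ[ℚ] AlgebraicClosure ℚ, σ • Q = Q)
    (hQord : addOrderOf Q = p) {ℓ : ℕ} (hℓ : ℓ.Prime) (hℓ2 : ℓ ≠ 2) (hℓp : ℓ ≠ p)
    (hℓΔ : (ℓ : ℤ) ∣ W.Δ) (hℓc₄ : ¬ (ℓ : ℤ) ∣ W.c₄)
    (A : ValuationSubring (AlgebraicClosure ℚ)) (hA : A.LiesOverPrime ℓ)
    (h : W.InZeroComponentAt A Q) : p + 1 ≤ 2 * ℓ := by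
  classical
  obtain ⟨σ, hσD, hfr⟩ := Fermat.Agent.Lib.Frobenius.exists_isFrobeniusAt_of_liesOverPrime A hℓ hA
  set g : A.decompositionSubgroup ℚ := ⟨σ, hσD⟩ with hg
  have hfix : mapPt (decK g) (map_decK' W g) Q = Q := by
    rw [← smul_eq_mapPt]
    exact hQfix _
  exact lne_core' hp hℓ hℓ2 hℓp hℓΔ hℓc₄ hA g hfr (gen_modelA' W A) (map_decK' W g) Q hfix hQord h

end Fermat.Agent.S15.Lne
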